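/-
S56 / [GW-DUAL], cell [D5] (helper9, prefix `s56gdg_`), file 1: ABSTRACT LEMMAS on the connecting
map `δ⁰` of a short exact sequence of level modules (`S55/Level/LES.lean`).

* `s56gdg_delta0_eq` : if `i ∘ z = d⁰ θ` for a level-constant cocycle `z : G → A` and `θ ∈ B`, then
  `π θ` is invariant and `δ⁰ (π θ) = [z]`;
* `s56gdg_descZ1`    : a level-constant cocycle with values in `ker π` descends to `A`.
-/
import Fermat.Agent.S55.Level.LES

set_option autoImplicit false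
set_option linter.unusedSectionVars false

namespace Fermat.Agent.S56

open Fermat.Agent.S55 groupCohomology

section Abs

variable {G : Type*} [Group G] {A B C : Type*} [AddCommGroup A] [DistribMulAction G A]
  [AddCommGroup B] [DistribMulAction G B] [AddCommGroup C] [DistribMulAction G C]
  (E : LvSES G A B C) (L : LevelSys G)

/-- if `i (z g) = g • θ - θ` then `π θ` is invariant. -/
theorem s56gdg_pi_mem_H0 {z : G → A} {θ : B} (h : ∀ g, E.i (z g) = g • θ - θ) :
    E.π θ ∈ lvH0 (G := G) C := by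
  intro g
  have h1 := congrArg E.π (h g)
  rw [E.π_i, map_sub, E.π_equiv] at h1
  exact (sub_eq_zero.1 h1.symm)

/-- **`δ⁰ (π θ) = [z]` when `i ∘ z = d⁰ θ`.** -/
theorem s56gdg_delta0_eq (hB : L.IsSmooth B) (z : lvZ1 L A) (θ : B)
    (h : ∀ g, E.i ((z : G → A) g) = g • θ - θ) :
    E.δ0 L hB ⟨E.π θ, s56gdg_pi_mem_H0 E h⟩ = lvH1mk L A z := by
  have hθ : θ ∈ E.P0 := s56gdg_pi_mem_H0 E h
  have h1 : (⟨E.π θ, s56gdg_pi_mem_H0 E h⟩ : lvH0 (G := G) C) = E.q0 ⟨θ, hθ⟩ := rfl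
  rw [h1, E.δ0_q0 L hB]
  congr 1
  apply Subtype.ext
  apply E.pull1_mi_injective L
  rw [E.pull1_Ψ0 L hB]
  funext g
  rw [E.mi_pull1_apply, h g, lvD0_apply]

/-- a level-constant cocycle with values in `ker π` descends to `A`. -/
theorem s56gdg_descZ1 (c : lvZ1 L B) (hc : ∀ g, E.π ((c : G → B) g) = 0) :
    ∃ z : lvZ1 L A, ∀ g, E.i ((z : G → A) g) = (c : G → B) g :=
  ⟨⟨E.desc1 c.1, E.isCocycle₁_desc1 hc c.2.1, E.isLC1_desc1 L c.2.2⟩, fun g => E.i_desc1 hc g⟩

end Abs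

end Fermat.Agent.S56
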