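/-
S56 / [GW-DUAL], cell [D5] (helper9, prefix `s56gdg_`), file 2: THE CORE COMPUTATION.

Setting of `S55/Dual`: a seam `𝔖 : du_Seam p S`, levels `K₀ ≤ b`, a morphism of lattices
`i₀ : R₀ ⟶ F₀` over `Γ_{K₀}`, a global short exact sequence `Eg : 0 → A → T_F → T_R → 0`
(`T_Y = Hom(Y, E_S)`, the second map being restriction along `i₀`), and for `q ∈ S` a local one
`El : 0 → A_q → T_F^q → T_R^q → 0` with a localisation morphism `t : Eg → El`.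

θ-DATA at the level `b`: an additive map `φ̃ : F₀ → ∏_q J_q(b)` such that `j ∘ φ̃ : F₀ → C°(b)` and
`χ = φ̃ ∘ i₀ : R₀ → ∏_q J_q(b)` are `Γ_b`-equivariant.  Then
* `s56gdg_zt` : the cocycle `g ↦ incl_b ∘ ε⁻¹ ((b.q g) • φ̃ - φ̃)` of `G_ℚ` in `T_F` is killed by
  `T_F → T_R` (`s56gdg_pi_zt`), hence comes from a cocycle `z` in `A`;
* `s56gdg_core` : the localisation at `q` of the class of `z` is `δ⁰_q` of the invariant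
  homomorphism `r ↦ lam_b (pr_q (χ r)_q)` of `T_R^q`.
-/
import Fermat.Agent.S56.GW.Dual.D5.Abs
import Fermat.Agent.S55.Dual.XSurj

set_option autoImplicit false
set_option linter.unusedSectionVars false

open CategoryTheory groupCohomology ExtCitation

namespace Fermat.Agent.S56

open Fermat.Agent.S55

local notation "Qbar" => AlgebraicClosure ℚ
local notation "GQ" => (AlgebraicClosure ℚ ≃ₐ[ℚ] AlgebraicClosure ℚ)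

noncomputable section

section Core

variable {p : ℕ} {S : Finset Nat.Primes} (𝔖 : du_Seam p S) [Nonempty ↥S] {K₀ b : du_Lev S}
  (hb : K₀ ≤ b) {R₀ F₀ : Rep.{0} ℤ K₀.Γ} (i₀ : R₀ ⟶ F₀) (hF : ld_IsLattice F₀)

/-- `i₀` on the carriers of the level `b`. -/
def s56gdg_iact : tl_Act (sl_Y R₀ hb) →+ tl_Act (sl_Y F₀ hb) :=
  (tl_toAct (sl_Y F₀ hb)).comp
    ((i₀.hom : R₀.V →+ F₀.V).comp (tl_ofAct (sl_Y R₀ hb)))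

theorem s56gdg_iact_smul (γ : b.Γ) (r : tl_Act (sl_Y R₀ hb)) :
    s56gdg_iact hb i₀ (γ • r) = γ • s56gdg_iact hb i₀ r := by
  apply sl_ofAct_injective
  exact Rep.hom_comm_apply i₀ (du_Lev.res hb γ) _

/-- the cocycle `γ ↦ ε⁻¹ (γ • φ̃ - φ̃)` of `Γ_b` in `Hom(F₀, E(b))`. -/
def s56gdg_w (φt : ↥((sl_homSes 𝔖 F₀ hb hF).P0)) :
    ↥(lvZ1 (LevelSys.trivial b.Γ) (LvHom (tl_Act (sl_Y F₀ hb)) (tl_Act (𝔖.E b)))) :=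
  (sl_homSes 𝔖 F₀ hb hF).Ψ0 (LevelSys.trivial b.Γ) (sl_isSmooth_trivial _) φt

theorem s56gdg_eps_w (φt : ↥((sl_homSes 𝔖 F₀ hb hF).P0)) (γ : b.Γ)
    (y : tl_Act (sl_Y F₀ hb)) :
    sl_eps 𝔖 b ((s56gdg_w 𝔖 hb hF φt).1 γ y) =
      γ • (φt : LvHom (tl_Act (sl_Y F₀ hb)) (sl_J 𝔖 b)) (γ⁻¹ • y) -
        (φt : LvHom (tl_Act (sl_Y F₀ hb)) (sl_J 𝔖 b)) y := by
  have h := (sl_homSes 𝔖 F₀ hb hF).pull1_Ψ0 (LevelSys.trivial b.Γ) (sl_isSmooth_trivial _) φt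
  have h1 := congrFun h γ
  have h2 := congrArg (fun ψ : LvHom (tl_Act (sl_Y F₀ hb)) (sl_J 𝔖 b) => ψ y) h1
  exact h2

/-- the inflated cocycle of `G_ℚ` in `T_F`. -/
def s56gdg_zt (φt : ↥((sl_homSes 𝔖 F₀ hb hF).P0)) :
    ↥(lvZ1 (tl_levelsS S) (dm_T S K₀.q F₀)) :=
  (dm_ql_Q 𝔖 hb F₀).mor.Z1 (s56gdg_w 𝔖 hb hF φt)

theorem s56gdg_zt_apply (φt : ↥((sl_homSes 𝔖 F₀ hb hF).P0)) (g : GQ)
    (y : dm_Yg K₀.q F₀) :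
    (s56gdg_zt 𝔖 hb hF φt).1 g y =
      dm_ql_incl 𝔖 b ((s56gdg_w 𝔖 hb hF φt).1 (b.q g) (dm_ql_toYa hb F₀ y)) := rfl

/-- the composite `χ = φ̃ ∘ i₀`. -/
def s56gdg_chi (φt : ↥((sl_homSes 𝔖 F₀ hb hF).P0)) :
    LvHom (tl_Act (sl_Y R₀ hb)) (sl_J 𝔖 b) :=
  LvHom.precomp (s56gdg_iact hb i₀) (φt : LvHom (tl_Act (sl_Y F₀ hb)) (sl_J 𝔖 b))

theorem s56gdg_chi_apply (φt : ↥((sl_homSes 𝔖 F₀ hb hF).P0)) (r : tl_Act (sl_Y R₀ hb)) :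
    s56gdg_chi 𝔖 hb i₀ hF φt r =
      (φt : LvHom (tl_Act (sl_Y F₀ hb)) (sl_J 𝔖 b)) (s56gdg_iact hb i₀ r) := rfl

/-- if `χ` is equivariant, the cocycle `w` vanishes on the image of `i₀`. -/
theorem s56gdg_w_iact (φt : ↥((sl_homSes 𝔖 F₀ hb hF).P0))
    (hχ : s56gdg_chi 𝔖 hb i₀ hF φt ∈
      lvH0 (G := b.Γ) (LvHom (tl_Act (sl_Y R₀ hb)) (sl_J 𝔖 b)))
    (γ : b.Γ) (r : tl_Act (sl_Y R₀ hb)) :
    (s56gdg_w 𝔖 hb hF φt).1 γ (s56gdg_iact hb i₀ r) = 0 := by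
  apply (sl_ses 𝔖 b).i_inj
  rw [map_zero]
  show sl_eps 𝔖 b _ = 0
  rw [s56gdg_eps_w]
  have h1 : γ⁻¹ • s56gdg_iact hb i₀ r = s56gdg_iact hb i₀ (γ⁻¹ • r) :=
    (s56gdg_iact_smul hb i₀ γ⁻¹ r).symm
  rw [h1, ← s56gdg_chi_apply, ← s56gdg_chi_apply]
  have h2 := congrArg (fun ψ : LvHom (tl_Act (sl_Y R₀ hb)) (sl_J 𝔖 b) => ψ r) (hχ γ)
  simp only [LvHom.smul_apply] at h2
  rw [h2, sub_self]

variable {A : Type} [AddCommGroup A] [DistribMulAction GQ A]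
  (Eg : LvSES GQ A (dm_T S K₀.q F₀) (dm_T S K₀.q R₀))
  (hEg : ∀ (f : dm_T S K₀.q F₀) (r : dm_Yg K₀.q R₀), Eg.π f r = f (i₀.hom r))

include hEg in
/-- **the inflated cocycle is killed by `T_F → T_R`.** -/
theorem s56gdg_pi_zt (φt : ↥((sl_homSes 𝔖 F₀ hb hF).P0))
    (hχ : s56gdg_chi 𝔖 hb i₀ hF φt ∈
      lvH0 (G := b.Γ) (LvHom (tl_Act (sl_Y R₀ hb)) (sl_J 𝔖 b))) (g : GQ) :
    Eg.π ((s56gdg_zt 𝔖 hb hF φt).1 g) = 0 := by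
  refine LvHom.ext fun r => ?_
  rw [hEg, LvHom.zero_apply, s56gdg_zt_apply]
  have h := s56gdg_w_iact 𝔖 hb i₀ hF φt hχ (b.q g) (tl_toAct (sl_Y R₀ hb) r)
  have h1 : dm_ql_toYa hb F₀ (i₀.hom r) = s56gdg_iact hb i₀ (tl_toAct (sl_Y R₀ hb) r) := rfl
  rw [h1, h]
  exact map_zero (dm_ql_incl 𝔖 b)

end Core

section Local

variable {p : ℕ} {S : Finset Nat.Primes} (𝔖 : du_Seam p S) [Nonempty ↥S] {K₀ b : du_Lev S}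
  (hb : K₀ ≤ b) {R₀ F₀ : Rep.{0} ℤ K₀.Γ} (i₀ : R₀ ⟶ F₀) (hF : ld_IsLattice F₀) (q : ↥S)

/-- `lam_b ∘ pr_q : J_q(b) → (ℚ̄_q)ˣ`. -/
def s56gdg_Lam (b : du_Lev S) : tl_Act ((𝔖.dat b).Jq q) →+ tl_locUnits q.1 where
  toFun x := 𝔖.lam b q (((𝔖.dat b).pr q).hom (tl_ofAct ((𝔖.dat b).Jq q) x))
  map_zero' := by
    rw [map_zero]
    have h : ((𝔖.dat b).pr q).hom 0 = 0 := map_zero ((𝔖.dat b).pr q).hom
    rw [h, map_zero]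
  map_add' x y := by
    rw [map_add]
    have h : ((𝔖.dat b).pr q).hom (tl_ofAct ((𝔖.dat b).Jq q) x + tl_ofAct ((𝔖.dat b).Jq q) y) =
        ((𝔖.dat b).pr q).hom (tl_ofAct ((𝔖.dat b).Jq q) x) +
          ((𝔖.dat b).pr q).hom (tl_ofAct ((𝔖.dat b).Jq q) y) :=
      map_add ((𝔖.dat b).pr q).hom _ _
    rw [h, map_add]

theorem s56gdg_Lam_apply (x : tl_Act ((𝔖.dat b).Jq q)) :
    s56gdg_Lam 𝔖 q b x = 𝔖.lam b q (((𝔖.dat b).pr q).hom (tl_ofAct ((𝔖.dat b).Jq q) x)) := rfl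

/-- `lam ∘ pr_q` is equivariant along `G_q → Γ_b`. -/
theorem s56gdg_Lam_smul (τ : primeLocalGaloisGroup q.1) (x : tl_Act ((𝔖.dat b).Jq q)) :
    s56gdg_Lam 𝔖 q b (b.q (primeLocalToGlobal q.1 τ) • x) = τ • s56gdg_Lam 𝔖 q b x := by
  rw [s56gdg_Lam_apply, s56gdg_Lam_apply,
    ← 𝔖.lam_equiv b q τ (dm_ql_locq 𝔖 b q τ) rfl]
  congr 1
  exact Rep.hom_comm_apply ((𝔖.dat b).pr q) (dm_ql_locq 𝔖 b q τ) _

/-- `lam ∘ pr_q ∘ ε_q` is the localisation of `S`-units. -/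
theorem s56gdg_Lam_eps (e : tl_Act (𝔖.E b)) :
    s56gdg_Lam 𝔖 q b (sl_eps 𝔖 b e q) = dm_ESloc S q.1 (dm_ql_incl 𝔖 b e) :=
  (dm_ql_ESloc_incl 𝔖 q e).symm

/-- the identity of `Y`, from the `G_q`-module to the `Γ_b`-module. -/
def s56gdg_Yl (Y : Rep.{0} ℤ K₀.Γ) : dm_Yl K₀.q q.1 Y →+ tl_Act (sl_Y Y hb) :=
  AddMonoidHom.id Y.V

theorem s56gdg_Yl_smul (Y : Rep.{0} ℤ K₀.Γ) (τ : primeLocalGaloisGroup q.1)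
    (y : dm_Yl K₀.q q.1 Y) :
    s56gdg_Yl hb q Y (τ • y) = b.q (primeLocalToGlobal q.1 τ) • s56gdg_Yl hb q Y y := by
  show Y.ρ (K₀.q (primeLocalToGlobal q.1 τ)) y =
    Y.ρ (du_Lev.res hb (b.q (primeLocalToGlobal q.1 τ))) y
  rw [du_Lev.res_q]

/-- **`θ ↦ lam ∘ pr_q ∘ (θ ·)_q`**, from `Hom(Y, ∏ J_q(b))` to `T_Y^q = Hom(Y, (ℚ̄_q)ˣ)`. -/
def s56gdg_theta (Y : Rep.{0} ℤ K₀.Γ) :
    LvHom (tl_Act (sl_Y Y hb)) (sl_J 𝔖 b) →+ dm_Tl K₀.q q.1 Y :=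
  (LvHom.postcomp ((s56gdg_Lam 𝔖 q b).comp
    (Pi.evalAddMonoidHom (fun q : ↥S => tl_Act ((𝔖.dat b).Jq q)) q))).comp
    (LvHom.precomp (s56gdg_Yl hb q Y))

theorem s56gdg_theta_apply (Y : Rep.{0} ℤ K₀.Γ) (φ : LvHom (tl_Act (sl_Y Y hb)) (sl_J 𝔖 b))
    (y : dm_Yl K₀.q q.1 Y) :
    s56gdg_theta 𝔖 hb q Y φ y = s56gdg_Lam 𝔖 q b (φ (s56gdg_Yl hb q Y y) q) := rfl

/-- `τ • θ_q(φ) = θ_q ((b.q τ) • φ)`. -/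
theorem s56gdg_smul_theta (Y : Rep.{0} ℤ K₀.Γ) (τ : primeLocalGaloisGroup q.1)
    (φ : LvHom (tl_Act (sl_Y Y hb)) (sl_J 𝔖 b)) :
    τ • s56gdg_theta 𝔖 hb q Y φ =
      s56gdg_theta 𝔖 hb q Y (b.q (primeLocalToGlobal q.1 τ) • φ) := by
  refine LvHom.ext fun y => ?_
  rw [LvHom.smul_apply, s56gdg_theta_apply, s56gdg_theta_apply, LvHom.smul_apply,
    ← s56gdg_Lam_smul, s56gdg_Yl_smul, map_inv, map_inv]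
  rfl

/-- an invariant of `Hom(Y, ∏ J_q(b))` gives an invariant of `T_Y^q`. -/
theorem s56gdg_theta_mem_H0 (Y : Rep.{0} ℤ K₀.Γ)
    (φ : LvHom (tl_Act (sl_Y Y hb)) (sl_J 𝔖 b))
    (hφ : φ ∈ lvH0 (G := b.Γ) (LvHom (tl_Act (sl_Y Y hb)) (sl_J 𝔖 b))) :
    s56gdg_theta 𝔖 hb q Y φ ∈
      lvH0 (G := primeLocalGaloisGroup q.1) (dm_Tl K₀.q q.1 Y) := by
  intro τ
  rw [s56gdg_smul_theta, hφ]

variable {A : Type} [AddCommGroup A] [DistribMulAction GQ A]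
  (Eg : LvSES GQ A (dm_T S K₀.q F₀) (dm_T S K₀.q R₀))
  {Aq : Type} [AddCommGroup Aq] [DistribMulAction (primeLocalGaloisGroup q.1) Aq]
  (El : LvSES (primeLocalGaloisGroup q.1) Aq (dm_Tl K₀.q q.1 F₀) (dm_Tl K₀.q q.1 R₀))
  (hEl : ∀ (f : dm_Tl K₀.q q.1 F₀) (r : dm_Yl K₀.q q.1 R₀), El.π f r = f (i₀.hom r))
  (t : LvSESMor Eg (tl_levelsS S) El (tl_levelsLoc q.1))
  (htB : t.mB = dm_locT S K₀.q q.1 F₀)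

include htB in
/-- the localisation of the cocycle is the coboundary of `θ_q(φ̃)`. -/
theorem s56gdg_loc_zt (φt : ↥((sl_homSes 𝔖 F₀ hb hF).P0))
    (z : ↥(lvZ1 (tl_levelsS S) A))
    (hz : ∀ g, Eg.i (z.1 g) = (s56gdg_zt 𝔖 hb hF φt).1 g) (τ : primeLocalGaloisGroup q.1) :
    El.i ((t.mA.Z1 z).1 τ) =
      τ • s56gdg_theta 𝔖 hb q F₀ (φt : LvHom (tl_Act (sl_Y F₀ hb)) (sl_J 𝔖 b)) -
        s56gdg_theta 𝔖 hb q F₀ (φt : LvHom (tl_Act (sl_Y F₀ hb)) (sl_J 𝔖 b)) := by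
  have h1 : El.i ((t.mA.Z1 z).1 τ) = t.mB.φ (Eg.i (z.1 (t.mB.f τ))) := by
    show El.i (t.mA.φ (z.1 (t.mA.f τ))) = _
    rw [← t.comm_i, t.fAB]
  rw [h1, hz, htB, s56gdg_smul_theta, ← map_sub]
  refine LvHom.ext fun f => ?_
  rw [dm_locT_φ_apply, dm_locT_f, s56gdg_zt_apply, ← s56gdg_Lam_eps, s56gdg_eps_w,
    s56gdg_theta_apply]
  rfl

include hEl htB in
/-- **the core of [D5]**: the localisation at `q` of the class attached to θ-data `φ̃` is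
`δ⁰_q (lam ∘ pr_q ∘ (χ ·)_q)`, `χ = φ̃ ∘ i₀`. -/
theorem s56gdg_core (φt : ↥((sl_homSes 𝔖 F₀ hb hF).P0))
    (hχ : s56gdg_chi 𝔖 hb i₀ hF φt ∈
      lvH0 (G := b.Γ) (LvHom (tl_Act (sl_Y R₀ hb)) (sl_J 𝔖 b)))
    (z : ↥(lvZ1 (tl_levelsS S) A))
    (hz : ∀ g, Eg.i (z.1 g) = (s56gdg_zt 𝔖 hb hF φt).1 g)
    (hB : (tl_levelsLoc q.1).IsSmooth (dm_Tl K₀.q q.1 F₀)) :
    t.mA.H1 (lvH1mk _ _ z) = El.δ0 (tl_levelsLoc q.1) hB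
      ⟨s56gdg_theta 𝔖 hb q R₀ (s56gdg_chi 𝔖 hb i₀ hF φt),
        s56gdg_theta_mem_H0 𝔖 hb q R₀ _ hχ⟩ := by
  have key := s56gdg_loc_zt 𝔖 hb hF q Eg El t htB φt z hz
  have hπ : El.π (s56gdg_theta 𝔖 hb q F₀ (φt : LvHom (tl_Act (sl_Y F₀ hb)) (sl_J 𝔖 b))) =
      s56gdg_theta 𝔖 hb q R₀ (s56gdg_chi 𝔖 hb i₀ hF φt) := by
    refine LvHom.ext fun r => ?_
    rw [hEl]
    rfl
  rw [LvMor.H1_mk, ← s56gdg_delta0_eq El (tl_levelsLoc q.1) hB (t.mA.Z1 z) _ key]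
  congr 1
  exact Subtype.ext hπ

end Local

end

end Fermat.Agent.S56
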