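/-
S56 / [GW-DUAL], cell [D5] (helper9, prefix `s56gdg_`), file 3: RAISING THE LEVEL.

θ-data `φ̃` at a level `b` and a homomorphism `ũ' : F₀ → E(b')` at a level `b' ≥ b` give θ-data
`φ̃' = t_{b'/b} ∘ φ̃ - ε ∘ ũ'` at `b'` (`s56gdg_raise`), and the attached cocycles of `G_ℚ` in
`T_F` differ by the coboundary of `incl ∘ ũ'` (`s56gdg_zt_raise`).  Since every element of `T_F` is
of the form `incl ∘ ũ'` at a suitable level (`s56gdg_exists_level`), the class of the cocycle can be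
corrected by an arbitrary coboundary of `T_F` at the cost of raising the level.
-/
import Fermat.Agent.S56.GW.Dual.D5.Theta

set_option autoImplicit false
set_option linter.unusedSectionVars false

open CategoryTheory groupCohomology ExtCitation

namespace Fermat.Agent.S56

open Fermat.Agent.S55

local notation "Qbar" => AlgebraicClosure ℚ
local notation "GQ" => (AlgebraicClosure ℚ ≃ₐ[ℚ] AlgebraicClosure ℚ)

noncomputable section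

section Raise

variable {p : ℕ} {S : Finset Nat.Primes} (𝔖 : du_Seam p S) [Nonempty ↥S] {K₀ b b' : du_Lev S}
  (hb : K₀ ≤ b) (hbb' : b ≤ b') {F₀ : Rep.{0} ℤ K₀.Γ} (hF : ld_IsLattice F₀)

/-- the transition of θ-data is θ-data. -/
theorem s56gdg_trans_mem_P0 (φt : ↥((sl_homSes 𝔖 F₀ hb hF).P0)) :
    (sl_homSesMor 𝔖 F₀ hb hbb' hF).mB.φ φt.1 ∈ (sl_homSes 𝔖 F₀ (le_trans hb hbb') hF).P0 := by
  intro g
  show g • (sl_homSes 𝔖 F₀ (le_trans hb hbb') hF).π _ = (sl_homSes 𝔖 F₀ (le_trans hb hbb') hF).π _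
  rw [← (sl_homSesMor 𝔖 F₀ hb hbb' hF).comm_π]
  exact ((sl_homSesMor 𝔖 F₀ hb hbb' hF).mC.H0 ((sl_homSes 𝔖 F₀ hb hF).q0 φt)).2 g

/-- **the raised θ-datum** `t ∘ φ̃ - ε ∘ ũ'`. -/
def s56gdg_raise (φt : ↥((sl_homSes 𝔖 F₀ hb hF).P0))
    (u' : LvHom (tl_Act (sl_Y F₀ (le_trans hb hbb'))) (tl_Act (𝔖.E b'))) :
    ↥((sl_homSes 𝔖 F₀ (le_trans hb hbb') hF).P0) :=
  ⟨(sl_homSesMor 𝔖 F₀ hb hbb' hF).mB.φ φt.1 - (sl_homSes 𝔖 F₀ (le_trans hb hbb') hF).i u',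
    AddSubgroup.sub_mem _ (s56gdg_trans_mem_P0 𝔖 hb hbb' hF φt) (by
      intro g
      show g • (sl_homSes 𝔖 F₀ (le_trans hb hbb') hF).π _ = (sl_homSes 𝔖 F₀ (le_trans hb hbb') hF).π _
      rw [LvSES.π_i, smul_zero])⟩

theorem s56gdg_raise_coe (φt : ↥((sl_homSes 𝔖 F₀ hb hF).P0))
    (u' : LvHom (tl_Act (sl_Y F₀ (le_trans hb hbb'))) (tl_Act (𝔖.E b'))) :
    ((s56gdg_raise 𝔖 hb hbb' hF φt u' : ↥((sl_homSes 𝔖 F₀ (le_trans hb hbb') hF).P0)) :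
      LvHom (tl_Act (sl_Y F₀ (le_trans hb hbb'))) (sl_J 𝔖 b')) =
      (sl_homSesMor 𝔖 F₀ hb hbb' hF).mB.φ φt.1 -
        (sl_homSes 𝔖 F₀ (le_trans hb hbb') hF).i u' := rfl

/-- the cocycle `w` of the raised datum. -/
theorem s56gdg_w_raise (φt : ↥((sl_homSes 𝔖 F₀ hb hF).P0))
    (u' : LvHom (tl_Act (sl_Y F₀ (le_trans hb hbb'))) (tl_Act (𝔖.E b'))) :
    ((s56gdg_w 𝔖 (le_trans hb hbb') hF (s56gdg_raise 𝔖 hb hbb' hF φt u')).1 : b'.Γ → _) =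
      (sl_homSesMor 𝔖 F₀ hb hbb' hF).mA.pull1 (s56gdg_w 𝔖 hb hF φt).1 -
        lvD0 b'.Γ _ u' := by
  apply (sl_homSes 𝔖 F₀ (le_trans hb hbb') hF).pull1_mi_injective (LevelSys.trivial b'.Γ)
  rw [map_sub, (sl_homSesMor 𝔖 F₀ hb hbb' hF).pull1_mi, LvMor.pull1_lvD0]
  unfold s56gdg_w
  rw [LvSES.pull1_Ψ0, LvSES.pull1_Ψ0, LvMor.pull1_lvD0, s56gdg_raise_coe, map_sub]
  rfl

/-- **the inflated cocycle of the raised datum** differs from the original one by the coboundary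
of `incl ∘ ũ'`. -/
theorem s56gdg_zt_raise (φt : ↥((sl_homSes 𝔖 F₀ hb hF).P0))
    (u' : LvHom (tl_Act (sl_Y F₀ (le_trans hb hbb'))) (tl_Act (𝔖.E b'))) (g : GQ) :
    (s56gdg_zt 𝔖 (le_trans hb hbb') hF (s56gdg_raise 𝔖 hb hbb' hF φt u')).1 g =
      (s56gdg_zt 𝔖 hb hF φt).1 g -
        (g • (dm_ql_Q 𝔖 (le_trans hb hbb') F₀).φ u' - (dm_ql_Q 𝔖 (le_trans hb hbb') F₀).φ u') := by
  have hmor : dm_ql_trans 𝔖 hb hbb' F₀ = (sl_homSesMor 𝔖 F₀ hb hbb' hF).mA :=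
    hmb_LvMor_ext rfl rfl
  have h1 : ((s56gdg_zt 𝔖 (le_trans hb hbb') hF (s56gdg_raise 𝔖 hb hbb' hF φt u')).1 : GQ → _) =
      (dm_ql_Q 𝔖 (le_trans hb hbb') F₀).mor.pull1
        (s56gdg_w 𝔖 (le_trans hb hbb') hF (s56gdg_raise 𝔖 hb hbb' hF φt u')).1 := rfl
  have h2 : ((s56gdg_zt 𝔖 hb hF φt).1 : GQ → _) =
      (dm_ql_Q 𝔖 hb F₀).mor.pull1 (s56gdg_w 𝔖 hb hF φt).1 := rfl
  have h3 := LvQuot.pull1_trans (dm_ql_Q 𝔖 hb F₀) (dm_ql_Q 𝔖 (le_trans hb hbb') F₀)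
    (dm_ql_trans 𝔖 hb hbb' F₀) (dm_ql_Q_trans_f 𝔖 hb hbb' F₀) (dm_ql_Q_trans_φ 𝔖 hb hbb' F₀)
    (s56gdg_w 𝔖 hb hF φt).1
  rw [hmor] at h3
  have h4 := congrFun h1 g
  rw [s56gdg_w_raise, map_sub, h3, LvMor.pull1_lvD0, ← h2] at h4
  exact h4

end Raise

end

end Fermat.Agent.S56
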