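/-
S56 / [GW-DUAL], cell [D5] (helper9, prefix `s56gdg_`), file 4: THE TWO DIRECTIONS OF [D5] IN THE
STANDARD SETTING OF S55 (`K₀ : du_Lev S`, lattices `i₀ : R₀ ⟶ F₀` over `Γ_{K₀}`, a global sequence
`Eg : 0 → A → T_F → T_R → 0` and local ones `El q` with localisation morphisms `t q`).

* `s56gdg_exists_class` (D5-b): every pair `(χ, c)`, `χ ∈ Hom_Γ(R₀, ∏ J_q(b))`,
  `c ∈ Hom_Γ(F₀, C°(b))` with `sum ∘ χ = c ∘ i₀`, comes with a class `x ∈ H¹(G_S, A)` such that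
  `loc_q x = δ⁰_q (lam ∘ pr_q ∘ χ_q)` for all `q ∈ S`;
* `s56gdg_exists_data` (D5-a): every class `x` is of this form at some level `b` above a given one.
-/
import Fermat.Agent.S56.GW.Dual.D5.Raise

set_option autoImplicit false
set_option linter.unusedSectionVars false

open CategoryTheory groupCohomology ExtCitation

namespace Fermat.Agent.S56

open Fermat.Agent.S55

local notation "Qbar" => AlgebraicClosure ℚ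
local notation "GQ" => (AlgebraicClosure ℚ ≃ₐ[ℚ] AlgebraicClosure ℚ)

noncomputable section

section Aux

variable {p : ℕ} {S : Finset Nat.Primes} (𝔖 : du_Seam p S) [Nonempty ↥S] {K₀ b b' : du_Lev S}
  (hb : K₀ ≤ b) (hbb' : b ≤ b') {R₀ F₀ : Rep.{0} ℤ K₀.Γ} (i₀ : R₀ ⟶ F₀)
  (hF : ld_IsLattice F₀) (hR : ld_IsLattice R₀)

include hF in
/-- every element of `T_F` comes from a finite level above a given one. -/
theorem s56gdg_exists_level (v : dm_T S K₀.q F₀) :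
    ∃ (b' : du_Lev S) (hbb' : b ≤ b')
      (v' : LvHom (tl_Act (sl_Y F₀ (le_trans hb hbb'))) (tl_Act (𝔖.E b'))),
      (dm_ql_Q 𝔖 (le_trans hb hbb') F₀).φ v' = v := by
  obtain ⟨W, hW, hfix⟩ := dm_isSmooth_T S K₀.q (dm_ql_hπ₀ K₀) F₀ hF v
  obtain ⟨b', hbb', hle⟩ := dm_ql_exists_ge b hW
  obtain ⟨v', hv'⟩ := dm_ql_φ_range 𝔖 (le_trans hb hbb') F₀ v (fun σ hσ => hfix σ (hle hσ))
  exact ⟨b', hbb', v', hv'⟩

/-- `lam ∘ pr_q` is compatible with the transition maps. -/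
theorem s56gdg_Lam_tJ (q : ↥S) (x : sl_J 𝔖 b) :
    s56gdg_Lam 𝔖 q b' (sl_tJ 𝔖 hbb' x q) = s56gdg_Lam 𝔖 q b (x q) := by
  rw [s56gdg_Lam_apply, s56gdg_Lam_apply, sl_tJ_apply]
  exact 𝔖.tJ_lam hbb' q _

/-- `θ_q` is compatible with the transition maps. -/
theorem s56gdg_theta_trans (q : ↥S) (Y : Rep.{0} ℤ K₀.Γ) (hY : ld_IsLattice Y)
    (φ : LvHom (tl_Act (sl_Y Y hb)) (sl_J 𝔖 b)) :
    s56gdg_theta 𝔖 (le_trans hb hbb') q Y ((sl_homSesMor 𝔖 Y hb hbb' hY).mB.φ φ) =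
      s56gdg_theta 𝔖 hb q Y φ := by
  refine LvHom.ext fun y => ?_
  rw [s56gdg_theta_apply, s56gdg_theta_apply]
  exact s56gdg_Lam_tJ 𝔖 hbb' q _

/-- `E_R.π (φ̃ ∘ i₀) = (E_F.π φ̃) ∘ i₀`. -/
theorem s56gdg_pi_chi (φt : ↥((sl_homSes 𝔖 F₀ hb hF).P0)) :
    (sl_homSes 𝔖 R₀ hb hR).π (s56gdg_chi 𝔖 hb i₀ hF φt) =
      LvHom.precomp (s56gdg_iact hb i₀) ((sl_homSes 𝔖 F₀ hb hF).π φt.1) := rfl

/-- `χ` of the raised datum. -/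
theorem s56gdg_chi_raise (φt : ↥((sl_homSes 𝔖 F₀ hb hF).P0))
    (u' : LvHom (tl_Act (sl_Y F₀ (le_trans hb hbb'))) (tl_Act (𝔖.E b'))) :
    s56gdg_chi 𝔖 (le_trans hb hbb') i₀ hF (s56gdg_raise 𝔖 hb hbb' hF φt u') =
      (sl_homSesMor 𝔖 R₀ hb hbb' hR).mB.φ (s56gdg_chi 𝔖 hb i₀ hF φt) -
        (sl_homSes 𝔖 R₀ (le_trans hb hbb') hR).i
          (LvHom.precomp (s56gdg_iact (le_trans hb hbb') i₀) u') := rfl

/-- converse of `s56gdg_w_iact`: if the cocycle `w` vanishes on the image of `i₀`, then `χ` is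
equivariant. -/
theorem s56gdg_chi_mem_H0 (φt : ↥((sl_homSes 𝔖 F₀ hb hF).P0))
    (h : ∀ (γ : b.Γ) (r : tl_Act (sl_Y R₀ hb)),
      (s56gdg_w 𝔖 hb hF φt).1 γ (s56gdg_iact hb i₀ r) = 0) :
    s56gdg_chi 𝔖 hb i₀ hF φt ∈
      lvH0 (G := b.Γ) (LvHom (tl_Act (sl_Y R₀ hb)) (sl_J 𝔖 b)) := by
  intro γ
  refine LvHom.ext fun r => ?_
  rw [LvHom.smul_apply, s56gdg_chi_apply, s56gdg_chi_apply, s56gdg_iact_smul]
  have h1 := s56gdg_eps_w 𝔖 hb hF φt γ (s56gdg_iact hb i₀ r)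
  rw [h γ r, map_zero] at h1
  exact (sub_eq_zero.1 h1.symm)

end Aux

section Main

variable {p : ℕ} {S : Finset Nat.Primes} (𝔖 : du_Seam p S) [Nonempty ↥S] {K₀ : du_Lev S}
  {R₀ F₀ : Rep.{0} ℤ K₀.Γ} (i₀ : R₀ ⟶ F₀) (hF : ld_IsLattice F₀) (hR : ld_IsLattice R₀)
  {A : Type} [AddCommGroup A] [DistribMulAction GQ A]
  (Eg : LvSES GQ A (dm_T S K₀.q F₀) (dm_T S K₀.q R₀))
  (hEg : ∀ (f : dm_T S K₀.q F₀) (r : dm_Yg K₀.q R₀), Eg.π f r = f (i₀.hom r))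
  {Aq : ↥S → Type} [∀ q, AddCommGroup (Aq q)]
  [∀ q : ↥S, DistribMulAction (primeLocalGaloisGroup q.1) (Aq q)]
  (El : ∀ q : ↥S, LvSES (primeLocalGaloisGroup q.1) (Aq q) (dm_Tl K₀.q q.1 F₀)
    (dm_Tl K₀.q q.1 R₀))
  (hEl : ∀ (q : ↥S) (f : dm_Tl K₀.q q.1 F₀) (r : dm_Yl K₀.q q.1 R₀),
    (El q).π f r = f (i₀.hom r))
  (t : ∀ q : ↥S, LvSESMor Eg (tl_levelsS S) (El q) (tl_levelsLoc q.1))
  (htB : ∀ q : ↥S, (t q).mB = dm_locT S K₀.q q.1 F₀)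
  (hB : ∀ q : ↥S, (tl_levelsLoc q.1).IsSmooth (dm_Tl K₀.q q.1 F₀))

/-- "the localisations of `x` are `δ⁰_q (lam ∘ pr_q ∘ χ_q)`". -/
def s56gdg_IsLoc (x : lvH1 (tl_levelsS S) A) {b : du_Lev S} (hb : K₀ ≤ b)
    (χ : ↥(lvH0 (G := b.Γ) (LvHom (tl_Act (sl_Y R₀ hb)) (sl_J 𝔖 b)))) : Prop :=
  ∀ q : ↥S, (t q).mA.H1 x = (El q).δ0 (tl_levelsLoc q.1) (hB q)
    ⟨s56gdg_theta 𝔖 hb q R₀ χ.1, s56gdg_theta_mem_H0 𝔖 hb q R₀ _ χ.2⟩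

include hF hEg hEl htB in
/-- **(D5-b)**: every compatible pair `(χ, c)` gives a global class with the prescribed
localisations. -/
theorem s56gdg_exists_class {b : du_Lev S} (hb : K₀ ≤ b)
    (χ : ↥(lvH0 (G := b.Γ) (LvHom (tl_Act (sl_Y R₀ hb)) (sl_J 𝔖 b))))
    (c : ↥(lvH0 (G := b.Γ) (LvHom (tl_Act (sl_Y F₀ hb)) ↥(sl_Co 𝔖 b))))
    (hcomp : (sl_homSes 𝔖 R₀ hb hR).π χ.1 = LvHom.precomp (s56gdg_iact hb i₀) c.1) :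
    ∃ x : lvH1 (tl_levelsS S) A, s56gdg_IsLoc 𝔖 Eg El t hB x hb χ := by
  -- 1. lift `c`
  obtain ⟨φt, hφt⟩ := (sl_homSes 𝔖 F₀ hb hF).q0_surjective c
  have hφt' : (sl_homSes 𝔖 F₀ hb hF).π φt.1 = c.1 := congrArg Subtype.val hφt
  -- 2. `d := χ(φ̃) - χ` is `E`-valued
  have hd : (sl_homSes 𝔖 R₀ hb hR).π (s56gdg_chi 𝔖 hb i₀ hF φt - χ.1) = 0 := by
    rw [map_sub, s56gdg_pi_chi 𝔖 hb i₀ hF hR, hφt', hcomp, sub_self]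
  obtain ⟨u, hu⟩ := ((sl_homSes 𝔖 R₀ hb hR).exact _).1 hd
  -- 3. extend `incl ∘ u` to `F`
  obtain ⟨ut, hut⟩ := Eg.π_surj ((dm_ql_Q 𝔖 hb R₀).φ u)
  -- 4. a level for the extension
  obtain ⟨b', hbb', u', hu'⟩ := s56gdg_exists_level 𝔖 hb hF ut
  -- 5. the raised datum and its `χ`
  have hpre : LvHom.precomp (s56gdg_iact (le_trans hb hbb') i₀) u' =
      (sl_homSesMor 𝔖 R₀ hb hbb' hR).mA.φ u := by
    apply (dm_ql_Q 𝔖 (le_trans hb hbb') R₀).φ_inj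
    have hmor : dm_ql_trans 𝔖 hb hbb' R₀ = (sl_homSesMor 𝔖 R₀ hb hbb' hR).mA :=
      hmb_LvMor_ext rfl rfl
    rw [← hmor, dm_ql_Q_trans_φ, ← hut, ← hu']
    refine LvHom.ext fun r => ?_
    rw [hEg]
    rfl
  have hχ' : s56gdg_chi 𝔖 (le_trans hb hbb') i₀ hF (s56gdg_raise 𝔖 hb hbb' hF φt u') =
      (sl_homSesMor 𝔖 R₀ hb hbb' hR).mB.φ χ.1 := by
    rw [s56gdg_chi_raise 𝔖 hb hbb' i₀ hF hR, hpre, ← (sl_homSesMor 𝔖 R₀ hb hbb' hR).comm_i, hu,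
      ← map_sub, sub_sub_cancel]
  have hχ'mem : s56gdg_chi 𝔖 (le_trans hb hbb') i₀ hF (s56gdg_raise 𝔖 hb hbb' hF φt u') ∈
      lvH0 (G := b'.Γ) (LvHom (tl_Act (sl_Y R₀ (le_trans hb hbb'))) (sl_J 𝔖 b')) := by
    rw [hχ']
    exact ((sl_homSesMor 𝔖 R₀ hb hbb' hR).mB.H0 χ).2
  -- 6. descend the cocycle and apply the core
  obtain ⟨z, hz⟩ := s56gdg_descZ1 Eg (tl_levelsS S)
    (s56gdg_zt 𝔖 (le_trans hb hbb') hF (s56gdg_raise 𝔖 hb hbb' hF φt u'))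
    (s56gdg_pi_zt 𝔖 (le_trans hb hbb') i₀ hF Eg hEg _ hχ'mem)
  refine ⟨lvH1mk _ _ z, fun q => ?_⟩
  rw [s56gdg_core 𝔖 (le_trans hb hbb') i₀ hF q Eg (El q) (hEl q) (t q) (htB q) _ hχ'mem z hz
    (hB q)]
  congr 1
  apply Subtype.ext
  show s56gdg_theta 𝔖 (le_trans hb hbb') q R₀ _ = s56gdg_theta 𝔖 hb q R₀ χ.1
  rw [hχ', s56gdg_theta_trans 𝔖 hb hbb' q R₀ hR]

include hF hEg hEl htB in
/-- **(D5-a)**: every global class has localisations of the form `δ⁰_q (lam ∘ pr_q ∘ χ_q)` for a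
compatible pair `(χ, c)` at some level above a given one (given the vanishing of the local `H¹` of
`T_F`). -/
theorem s56gdg_exists_data
    (hV1 : ∀ (q : ↥S) (y : lvH1 (tl_levelsS S) (dm_T S K₀.q F₀)),
      (dm_locT S K₀.q q.1 F₀).H1 y = 0)
    (x : lvH1 (tl_levelsS S) A) {a : du_Lev S} (ha : K₀ ≤ a) :
    ∃ (b : du_Lev S) (hab : a ≤ b)
      (χ : ↥(lvH0 (G := b.Γ) (LvHom (tl_Act (sl_Y R₀ (ha.trans hab))) (sl_J 𝔖 b))))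
      (c : ↥(lvH0 (G := b.Γ) (LvHom (tl_Act (sl_Y F₀ (ha.trans hab))) ↥(sl_Co 𝔖 b)))),
      (sl_homSes 𝔖 R₀ (ha.trans hab) hR).π χ.1 =
        LvHom.precomp (s56gdg_iact (ha.trans hab) i₀) c.1 ∧
      s56gdg_IsLoc 𝔖 Eg El t hB x (ha.trans hab) χ := by
  obtain ⟨z₀, rfl⟩ := lvH1mk_surjective x
  obtain ⟨b, hab, c₀, hc₀⟩ := xj_surj 𝔖 F₀ hF ha
    ((Eg.mi (tl_levelsS S)).H1 (lvH1mk _ _ z₀)) (fun q => hV1 q _)
  have hb : K₀ ≤ b := ha.trans hab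
  obtain ⟨φt, hφt⟩ := (sl_homSes 𝔖 F₀ hb hF).q0_surjective c₀
  rw [← hφt, LvSES.δ0_q0, LvMor.H1_mk, LvMor.H1_mk, lvH1mk_eq_iff] at hc₀
  obtain ⟨v, hv⟩ := hc₀
  obtain ⟨b', hbb', v', hv'⟩ := s56gdg_exists_level 𝔖 hb hF v
  have hz : ∀ g, Eg.i (z₀.1 g) =
      (s56gdg_zt 𝔖 (le_trans hb hbb') hF (s56gdg_raise 𝔖 hb hbb' hF φt v')).1 g := by
    intro g
    rw [s56gdg_zt_raise, hv']
    have h1 := congrFun hv g
    rw [lvD0_apply] at h1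
    rw [h1]
    show Eg.i (z₀.1 g) = (s56gdg_zt 𝔖 hb hF φt).1 g -
      ((s56gdg_zt 𝔖 hb hF φt).1 g - Eg.i (z₀.1 g))
    rw [sub_sub_cancel]
  have hχ'mem : s56gdg_chi 𝔖 (le_trans hb hbb') i₀ hF (s56gdg_raise 𝔖 hb hbb' hF φt v') ∈
      lvH0 (G := b'.Γ) (LvHom (tl_Act (sl_Y R₀ (le_trans hb hbb'))) (sl_J 𝔖 b')) := by
    apply s56gdg_chi_mem_H0
    intro γ r
    obtain ⟨g, rfl⟩ := b'.q_surjective γ
    have h1 : Eg.π ((s56gdg_zt 𝔖 (le_trans hb hbb') hF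
        (s56gdg_raise 𝔖 hb hbb' hF φt v')).1 g) = 0 := by
      rw [← hz g, Eg.π_i]
    have h2 := congrArg (fun f : dm_T S K₀.q R₀ => f (dm_ql_fromYa (le_trans hb hbb') R₀ r)) h1
    beta_reduce at h2
    rw [hEg, s56gdg_zt_apply, LvHom.zero_apply] at h2
    apply dm_ql_incl_injective 𝔖 b'
    exact h2.trans (map_zero (dm_ql_incl 𝔖 b')).symm
  refine ⟨b', hab.trans hbb', ⟨_, hχ'mem⟩,
    (sl_homSes 𝔖 F₀ (le_trans hb hbb') hF).q0 (s56gdg_raise 𝔖 hb hbb' hF φt v'),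
    s56gdg_pi_chi 𝔖 (le_trans hb hbb') i₀ hF hR _, fun q => ?_⟩
  exact s56gdg_core 𝔖 (le_trans hb hbb') i₀ hF q Eg (El q) (hEl q) (t q) (htB q) _ hχ'mem z₀ hz
    (hB q)

include hF hR hEg hEl htB in
/-- **(D5-b), capitulation form**: the same for a `C(b)`-valued equivariant `c` which lands in `C°`
at some higher level `b' ≥ b`. -/
theorem s56gdg_exists_class' {b : du_Lev S} (hb : K₀ ≤ b)
    (χ : ↥(lvH0 (G := b.Γ) (LvHom (tl_Act (sl_Y R₀ hb)) (sl_J 𝔖 b))))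
    (cC : ↥(lvH0 (G := b.Γ) (LvHom (tl_Act (sl_Y F₀ hb)) (tl_Act (𝔖.dat b).C))))
    (hcomp : ∀ r, sl_sum 𝔖 b (χ.1 r) = cC.1 (s56gdg_iact hb i₀ r))
    {b' : du_Lev S} (hbb' : b ≤ b') (hCo : ∀ f, sl_tCact 𝔖 hbb' (cC.1 f) ∈ sl_Co 𝔖 b') :
    ∃ x : lvH1 (tl_levelsS S) A, s56gdg_IsLoc 𝔖 Eg El t hB x hb χ := by
  have hcC : ∀ (g : b.Γ) (y : tl_Act (sl_Y F₀ hb)), cC.1 (g • y) = g • cC.1 y :=
    (LvHom.mem_lvH0_iff cC.1).1 cC.2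
  -- the pair at the level `b'`
  let c' : ↥(lvH0 (G := b'.Γ) (LvHom (tl_Act (sl_Y F₀ (le_trans hb hbb'))) ↥(sl_Co 𝔖 b'))) :=
    ⟨LvHom.of (AddMonoidHom.codRestrict
      ((sl_tCact 𝔖 hbb').comp ((LvHom.toHom cC.1).comp (sl_Yid F₀ hb (le_trans hb hbb'))))
      (sl_Co 𝔖 b') (fun f => hCo _)), by
      rw [LvHom.mem_lvH0_iff]
      intro g y
      apply Subtype.ext
      show sl_tCact 𝔖 hbb' (cC.1 (sl_Yid F₀ hb (le_trans hb hbb') (g • y))) =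
        g • sl_tCact 𝔖 hbb' (cC.1 (sl_Yid F₀ hb (le_trans hb hbb') y))
      rw [sl_Yid_smul F₀ hb hbb', hcC, sl_tCact_smul]⟩
  have hcomp' : (sl_homSes 𝔖 R₀ (le_trans hb hbb') hR).π
      ((sl_homSesMor 𝔖 R₀ hb hbb' hR).mB.H0 χ).1 =
      LvHom.precomp (s56gdg_iact (le_trans hb hbb') i₀) c'.1 := by
    refine LvHom.ext fun r => Subtype.ext ?_
    show sl_sum 𝔖 b' (sl_tJ 𝔖 hbb' (χ.1 (sl_Yid R₀ hb (le_trans hb hbb') r))) =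
      sl_tCact 𝔖 hbb' (cC.1 (sl_Yid F₀ hb (le_trans hb hbb')
        (s56gdg_iact (le_trans hb hbb') i₀ r)))
    rw [← sl_tCact_sum, hcomp]
    rfl
  obtain ⟨x, hx⟩ := s56gdg_exists_class 𝔖 i₀ hF hR Eg hEg El hEl t htB hB (le_trans hb hbb')
    ((sl_homSesMor 𝔖 R₀ hb hbb' hR).mB.H0 χ) c' hcomp'
  refine ⟨x, fun q => ?_⟩
  rw [hx q]
  congr 1
  apply Subtype.ext
  exact s56gdg_theta_trans 𝔖 hb hbb' q R₀ hR χ.1

end Main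

end

end Fermat.Agent.S56
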