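/-
S56 / [GW-DUAL], cell [D5] (helper9, prefix `s56gdg_`), file 5: FROM A PLAIN BASE `π₀ : G_ℚ → Δ` TO
THE STANDARD SETTING.

Given a level `K₁ : du_Lev S` and `rK : Γ_{K₁} →* Δ` with `rK ∘ K₁.q = π₀`, the lattices
`R₁ = res_{rK} (la_R A)`, `F₁ = res_{rK} (la_F A)` over `Γ_{K₁}` carry the global and local
sequences `0 → M → T_F → T_R → 0` (same underlying maps as `dm_Eglob`, `dm_Eloc`), and the local
one is isomorphic (identity maps) to `dm_Eloc S₀ … π₀ A …` for any `S₀ ∋ p`.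
-/
import Fermat.Agent.S56.GW.Dual.D5.Std

set_option autoImplicit false
set_option linter.unusedSectionVars false

open CategoryTheory groupCohomology ExtCitation

namespace Fermat.Agent.S56

open Fermat.Agent.S55

local notation "Qbar" => AlgebraicClosure ℚ
local notation "GQ" => (AlgebraicClosure ℚ ≃ₐ[ℚ] AlgebraicClosure ℚ)

noncomputable section

section Gen

variable {G : Type*} [Group G] {L : LevelSys G} {X X' : Type*} [AddCommGroup X]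
  [DistribMulAction G X] [AddCommGroup X'] [DistribMulAction G X']

/-- a morphism of level cohomology over the identity of the group with bijective coefficient map
is injective on `H¹`. -/
theorem s56gdg_H1_eq_zero_of_bij (m : LvMor L X L X') (hf : ∀ g, m.f g = g)
    (hφ : Function.Bijective m.φ) (z : lvH1 L X) (hz : m.H1 z = 0) : z = 0 := by
  obtain ⟨c, rfl⟩ := lvH1mk_surjective z
  rw [LvMor.H1_mk, lvH1mk_eq_zero_iff] at hz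
  obtain ⟨x', hx'⟩ := hz
  obtain ⟨x, rfl⟩ := hφ.2 x'
  rw [lvH1mk_eq_zero_iff]
  refine ⟨x, funext fun g => hφ.1 ?_⟩
  have h1 := congrFun hx' g
  rw [LvMor.Z1_coe, LvMor.pull1_apply, lvD0_apply, hf] at h1
  rw [lvD0_apply, map_sub, ← h1]
  have h2 := m.equivariant g x
  rw [hf] at h2
  rw [h2]

end Gen

section Bridge

variable {p : ℕ} [Fact p.Prime] (S : Finset Nat.Primes) (hpS : pPrime p ∈ S)
  (S₀ : Finset Nat.Primes) (hpS₀ : pPrime p ∈ S₀)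
  (M : Rep.{0} (ZMod p) GQ) [FiniteDimensional (ZMod p) M]
  {Δ : Type} [Group Δ] (π₀ : GQ →* Δ) (A : Rep.{0} ℤ Δ)
  (e : A.V ≃+ (M.dualTwist (cycloChar p)).V)
  (he : ∀ (σ : GQ) (a : A.V), e (A.ρ (π₀ σ) a) = (M.dualTwist (cycloChar p)).ρ σ (e a))
  {ζ : Qbar} (hζ : IsPrimitiveRoot ζ p)
  (K₁ : du_Lev S) (rK : K₁.Γ →* Δ) (hrK : ∀ σ : GQ, rK (K₁.q σ) = π₀ σ)

/-- the relation lattice over `Γ_{K₁}`. -/
abbrev s56gdg_R1 : Rep.{0} ℤ K₁.Γ := Rep.res rK (la_R A)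

/-- the permutation lattice over `Γ_{K₁}`. -/
abbrev s56gdg_F1 : Rep.{0} ℤ K₁.Γ := Rep.res rK (la_F A)

/-- the inclusion `R₁ ⟶ F₁`. -/
abbrev s56gdg_i1 : s56gdg_R1 S A K₁ rK ⟶ s56gdg_F1 S A K₁ rK :=
  (Rep.resFunctor rK).map (la_ι A)

/-- **the global input** over `K₁`. -/
def s56gdg_inG :
    dm_Input p GQ (tl_Act M) (dm_Yg K₁.q (s56gdg_F1 S A K₁ rK)) (dm_Yg K₁.q (s56gdg_R1 S A K₁ rK))
      (dm_ES S) where
  ϖ := dm_varpi M A e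
  ι := ((la_ι A).hom : (la_R A).V →+ (la_F A).V)
  z := dm_zeta S hpS hζ
  χ := cycloChar p
  ϖ_surj := dm_varpi_surjective M A e
  ι_inj := dm_la_ι_injective A
  ι_equiv g r := Rep.hom_comm_apply (la_ι A) (rK (K₁.q g)) r
  ϖ_ι r := (dm_varpi_eq_zero_iff M A e _).2 (dm_la_π_ι A r)
  exact f hf := dm_la_exact A ((dm_varpi_eq_zero_iff M A e f).1 hf)
  hz := dm_nsmul_zeta S hpS hζ
  hz0 := dm_zeta_ne_zero S hpS hζ
  tors := dm_ES_torsion S hpS hζ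
  div := dm_ES_divisible S (p := pPrime p) hpS
  zχ := dm_smul_zeta S hpS hζ
  ϖχ g f m := by
    have h := dm_varpi_smul M π₀ A e he g f m
    rw [← hrK] at h
    exact h

/-- **the local input** over `K₁`. -/
def s56gdg_inL (q : Nat.Primes) :
    dm_Input p (primeLocalGaloisGroup q) (tl_Act (Rep.res (primeLocalToGlobal q) M))
      (dm_Yl K₁.q q (s56gdg_F1 S A K₁ rK)) (dm_Yl K₁.q q (s56gdg_R1 S A K₁ rK))
      (tl_locUnits q) where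
  ϖ := dm_varpi M A e
  ι := ((la_ι A).hom : (la_R A).V →+ (la_F A).V)
  z := dm_zetaLoc S hpS hζ q
  χ := (cycloChar p).comp (primeLocalToGlobal q)
  ϖ_surj := dm_varpi_surjective M A e
  ι_inj := dm_la_ι_injective A
  ι_equiv g r := Rep.hom_comm_apply (la_ι A) (rK (K₁.q (primeLocalToGlobal q g))) r
  ϖ_ι r := (dm_varpi_eq_zero_iff M A e _).2 (dm_la_π_ι A r)
  exact f hf := dm_la_exact A ((dm_varpi_eq_zero_iff M A e f).1 hf)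
  hz := dm_nsmul_zetaLoc S hpS hζ q
  hz0 := dm_zetaLoc_ne_zero S hpS hζ q
  tors := dm_locUnits_torsion S hpS hζ q
  div := tl_locUnits_divisible q p (Fact.out : p.Prime).ne_zero
  zχ := dm_smul_zetaLoc S hpS hζ q
  ϖχ g f m := by
    have h := dm_varpi_smul M π₀ A e he (primeLocalToGlobal q g) f m
    rw [← map_inv, ← hrK] at h
    exact h

/-- the localisation morphism between the two inputs. -/
def s56gdg_inMor (q : Nat.Primes) :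
    dm_InputMor (s56gdg_inG S hpS M π₀ A e he hζ K₁ rK hrK)
      (s56gdg_inL S hpS M π₀ A e he hζ K₁ rK hrK q) where
  r := primeLocalToGlobal q
  mV := AddMonoidHom.id M.V
  κF := AddMonoidHom.id (la_F A).V
  κR := AddMonoidHom.id (la_R A).V
  l := dm_ESloc S q
  mV_equiv _ _ := rfl
  κF_equiv _ _ := rfl
  κR_equiv _ _ := rfl
  l_equiv := dm_ESloc_smul S q
  l_z := rfl
  ι_κ _ := rfl
  ϖ_κ _ _ := rfl

/-- the comparison (identity maps) with the local input over `π₀`, for any `S₀ ∋ p`. -/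
def s56gdg_inCmp (q : Nat.Primes) :
    dm_InputMor (s56gdg_inL S hpS M π₀ A e he hζ K₁ rK hrK q)
      (dm_inputLoc S₀ hpS₀ M π₀ A e he hζ q) where
  r := MonoidHom.id _
  mV := AddMonoidHom.id M.V
  κF := AddMonoidHom.id (la_F A).V
  κR := AddMonoidHom.id (la_R A).V
  l := AddMonoidHom.id _
  mV_equiv _ _ := rfl
  κF_equiv h f := by
    show (la_F A).ρ (π₀ (primeLocalToGlobal q h)) f =
      (la_F A).ρ (rK (K₁.q (primeLocalToGlobal q h))) f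
    rw [hrK]
  κR_equiv h r := by
    show (la_R A).ρ (π₀ (primeLocalToGlobal q h)) r =
      (la_R A).ρ (rK (K₁.q (primeLocalToGlobal q h))) r
    rw [hrK]
  l_equiv _ _ := rfl
  l_z := rfl
  ι_κ _ := rfl
  ϖ_κ _ _ := rfl

/-- the global sequence `0 → M → T_{F₁} → T_{R₁} → 0`. -/
def s56gdg_Eg : LvSES GQ (tl_Act M) (dm_T S K₁.q (s56gdg_F1 S A K₁ rK))
    (dm_T S K₁.q (s56gdg_R1 S A K₁ rK)) :=
  (s56gdg_inG S hpS M π₀ A e he hζ K₁ rK hrK).ses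

/-- the local sequences. -/
def s56gdg_El (q : Nat.Primes) :
    LvSES (primeLocalGaloisGroup q) (tl_Act (Rep.res (primeLocalToGlobal q) M))
      (dm_Tl K₁.q q (s56gdg_F1 S A K₁ rK)) (dm_Tl K₁.q q (s56gdg_R1 S A K₁ rK)) :=
  (s56gdg_inL S hpS M π₀ A e he hζ K₁ rK hrK q).ses

/-- the localisation morphisms. -/
def s56gdg_t (q : Nat.Primes) :
    LvSESMor (s56gdg_Eg S hpS M π₀ A e he hζ K₁ rK hrK) (tl_levelsS S)
      (s56gdg_El S hpS M π₀ A e he hζ K₁ rK hrK q) (tl_levelsLoc q) :=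
  (s56gdg_inMor S hpS M π₀ A e he hζ K₁ rK hrK q).sesMor (tl_levelsS S) (tl_levelsLoc q)
    (fun U hU => ⟨U.comap (primeLocalToGlobal q), ⟨U, tl_levelsS_le_levelsAll hU, rfl⟩, le_rfl⟩)

/-- the comparison morphism with `dm_Eloc S₀ … π₀ A …`. -/
def s56gdg_cmp (q : Nat.Primes) :
    LvSESMor (s56gdg_El S hpS M π₀ A e he hζ K₁ rK hrK q) (tl_levelsLoc q)
      (dm_Eloc S₀ hpS₀ M π₀ A e he hζ q) (tl_levelsLoc q) :=
  (s56gdg_inCmp S hpS S₀ hpS₀ M π₀ A e he hζ K₁ rK hrK q).sesMor (tl_levelsLoc q)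
    (tl_levelsLoc q) (fun U hU => ⟨U, hU, fun _ hx => hx⟩)

theorem s56gdg_t_mA (q : Nat.Primes) :
    (s56gdg_t S hpS M π₀ A e he hζ K₁ rK hrK q).mA = tl_locMor S (primeLocalToGlobal q) M := rfl

theorem s56gdg_t_mB (q : Nat.Primes) :
    (s56gdg_t S hpS M π₀ A e he hζ K₁ rK hrK q).mB =
      dm_locT S K₁.q q (s56gdg_F1 S A K₁ rK) := rfl

theorem s56gdg_Eg_π_apply (f : dm_T S K₁.q (s56gdg_F1 S A K₁ rK))
    (r : dm_Yg K₁.q (s56gdg_R1 S A K₁ rK)) :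
    (s56gdg_Eg S hpS M π₀ A e he hζ K₁ rK hrK).π f r =
      f ((s56gdg_i1 S A K₁ rK).hom r) := rfl

theorem s56gdg_El_π_apply (q : Nat.Primes) (f : dm_Tl K₁.q q (s56gdg_F1 S A K₁ rK))
    (r : dm_Yl K₁.q q (s56gdg_R1 S A K₁ rK)) :
    (s56gdg_El S hpS M π₀ A e he hζ K₁ rK hrK q).π f r =
      f ((s56gdg_i1 S A K₁ rK).hom r) := rfl

/-- the identity morphism of level cohomology induces the identity on `H¹`. -/
theorem s56gdg_cmp_mA_H1 (q : Nat.Primes)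
    (z : lvH1 (tl_levelsLoc q) (tl_Act (Rep.res (primeLocalToGlobal q) M))) :
    (s56gdg_cmp S hpS S₀ hpS₀ M π₀ A e he hζ K₁ rK hrK q).mA.H1 z = z := by
  obtain ⟨c, rfl⟩ := lvH1mk_surjective z
  rfl

/-- `δ⁰` of the local sequence over `K₁` is `δ⁰` of `dm_Eloc S₀ … π₀ A …`. -/
theorem s56gdg_El_d0 (q : Nat.Primes)
    (hB : (tl_levelsLoc q).IsSmooth (dm_Tl K₁.q q (s56gdg_F1 S A K₁ rK)))
    (hB₀ : (tl_levelsLoc q).IsSmooth (dm_Tl π₀ q (la_F A)))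
    (c : ↥(lvH0 (G := primeLocalGaloisGroup q) (dm_Tl K₁.q q (s56gdg_R1 S A K₁ rK)))) :
    (s56gdg_El S hpS M π₀ A e he hζ K₁ rK hrK q).δ0 (tl_levelsLoc q) hB c =
      (dm_Eloc S₀ hpS₀ M π₀ A e he hζ q).δ0 (tl_levelsLoc q) hB₀
        ((s56gdg_cmp S hpS S₀ hpS₀ M π₀ A e he hζ K₁ rK hrK q).mC.H0 c) := by
  rw [← LvSESMor.δ0_comm (s56gdg_cmp S hpS S₀ hpS₀ M π₀ A e he hζ K₁ rK hrK q) hB hB₀,
    s56gdg_cmp_mA_H1]

/-- the identity of `Y`, from the module over `π₀` to the module over `K₁`. -/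
def s56gdg_kY (Y : Rep.{0} ℤ Δ) (q : Nat.Primes) :
    dm_Yl π₀ q Y →+ dm_Yl K₁.q q (Rep.res rK Y) := AddMonoidHom.id Y.V

/-- the identity of `Y`, from the module over `K₁` to the module over `π₀`. -/
def s56gdg_kY' (Y : Rep.{0} ℤ Δ) (q : Nat.Primes) :
    dm_Yl K₁.q q (Rep.res rK Y) →+ dm_Yl π₀ q Y := AddMonoidHom.id Y.V

include hrK in
theorem s56gdg_kY_smul (Y : Rep.{0} ℤ Δ) (q : Nat.Primes) (τ : primeLocalGaloisGroup q)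
    (y : dm_Yl π₀ q Y) :
    s56gdg_kY S π₀ K₁ rK Y q (τ • y) = τ • s56gdg_kY S π₀ K₁ rK Y q y := by
  show Y.ρ (π₀ (primeLocalToGlobal q τ)) y = Y.ρ (rK (K₁.q (primeLocalToGlobal q τ))) y
  rw [hrK]

/-- the identity `T_{Y₁}^q → T_Y^q` as a morphism of level cohomology. -/
def s56gdg_cmpT (Y : Rep.{0} ℤ Δ) (q : Nat.Primes) :
    LvMor (tl_levelsLoc q) (dm_Tl K₁.q q (Rep.res rK Y)) (tl_levelsLoc q) (dm_Tl π₀ q Y) :=
  LvHom.lvMor (tl_levelsLoc q) (tl_levelsLoc q) (MonoidHom.id _)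
    (fun U hU => ⟨U, hU, fun _ hx => hx⟩) (s56gdg_kY S π₀ K₁ rK Y q)
    (s56gdg_kY_smul S π₀ K₁ rK hrK Y q) (AddMonoidHom.id _) (fun _ _ => rfl)

theorem s56gdg_cmpT_bijective (Y : Rep.{0} ℤ Δ) (q : Nat.Primes) :
    Function.Bijective (s56gdg_cmpT S π₀ K₁ rK hrK Y q).φ := by
  constructor
  · intro ψ ψ' h
    refine LvHom.ext fun y => ?_
    exact congrArg (fun f : dm_Tl π₀ q Y => f (s56gdg_kY' S π₀ K₁ rK Y q y)) h
  · intro ψ'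
    exact ⟨LvHom.precomp (s56gdg_kY' S π₀ K₁ rK Y q) ψ', LvHom.ext fun y => rfl⟩

include π₀ hrK in
/-- **local vanishing** `H¹(G_q, T_{F₁}^q) = 0` (transport of `dm_lv_V1`). -/
theorem s56gdg_V1 (q : Nat.Primes)
    (z : lvH1 (tl_levelsLoc q) (dm_Tl K₁.q q (s56gdg_F1 S A K₁ rK))) : z = 0 :=
  s56gdg_H1_eq_zero_of_bij (s56gdg_cmpT S π₀ K₁ rK hrK (la_F A) q) (fun _ => rfl)
    (s56gdg_cmpT_bijective S π₀ K₁ rK hrK (la_F A) q) z (dm_lv_V1 π₀ q A _)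

theorem s56gdg_cmp_mC (q : Nat.Primes) :
    (s56gdg_cmp S hpS S₀ hpS₀ M π₀ A e he hζ K₁ rK hrK q).mC =
      s56gdg_cmpT S π₀ K₁ rK hrK (la_R A) q := rfl

variable (𝔖 : du_Seam p S) [Nonempty ↥S]

/-- **the element of `Hom_{G_q}(R, (ℚ̄_q)ˣ)` attached to `χ ∈ Hom_Γ(R₁, ∏ J_q(b))`**:
`r ↦ lam_b (pr_q (χ r)_q)`. -/
def s56gdg_tq {b : du_Lev S} (hb : K₁ ≤ b) (q : ↥S)
    (χ : ↥(lvH0 (G := b.Γ) (LvHom (tl_Act (sl_Y (s56gdg_R1 S A K₁ rK) hb)) (sl_J 𝔖 b)))) :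
    ↥(lvH0 (G := primeLocalGaloisGroup q.1) (dm_Tl π₀ q.1 (la_R A))) :=
  (s56gdg_cmpT S π₀ K₁ rK hrK (la_R A) q.1).H0
    ⟨s56gdg_theta 𝔖 hb q (s56gdg_R1 S A K₁ rK) χ.1, s56gdg_theta_mem_H0 𝔖 hb q _ _ χ.2⟩

theorem s56gdg_tq_apply {b : du_Lev S} (hb : K₁ ≤ b) (q : ↥S)
    (χ : ↥(lvH0 (G := b.Γ) (LvHom (tl_Act (sl_Y (s56gdg_R1 S A K₁ rK) hb)) (sl_J 𝔖 b))))
    (r : dm_Yl π₀ q.1 (la_R A)) :
    (s56gdg_tq S π₀ A K₁ rK hrK 𝔖 hb q χ).1 r =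
      s56gdg_Lam 𝔖 q b (χ.1 (s56gdg_Yl hb q _ (s56gdg_kY S π₀ K₁ rK (la_R A) q.1 r)) q) := rfl

variable (hF : ld_IsLattice (s56gdg_F1 S A K₁ rK)) (hR : ld_IsLattice (s56gdg_R1 S A K₁ rK))
  (hB₀ : ∀ q : Nat.Primes, (tl_levelsLoc q).IsSmooth (dm_Tl π₀ q (la_F A)))

include hpS hF in
/-- **[X1], general form**: every class of `H¹(G_S, M)` has localisations
`δ⁰_q (lam ∘ pr_q ∘ χ_q)` for a compatible pair `(χ, c)` at some level above a given one. -/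
theorem s56gdg_gen_X1 (x : lvH1 (tl_levelsS S) (tl_Act M)) {a : du_Lev S} (ha : K₁ ≤ a) :
    ∃ (b : du_Lev S) (hab : a ≤ b)
      (χ : ↥(lvH0 (G := b.Γ)
        (LvHom (tl_Act (sl_Y (s56gdg_R1 S A K₁ rK) (ha.trans hab))) (sl_J 𝔖 b))))
      (c : ↥(lvH0 (G := b.Γ)
        (LvHom (tl_Act (sl_Y (s56gdg_F1 S A K₁ rK) (ha.trans hab))) ↥(sl_Co 𝔖 b)))),
      (sl_homSes 𝔖 (s56gdg_R1 S A K₁ rK) (ha.trans hab) hR).π χ.1 =
        LvHom.precomp (s56gdg_iact (ha.trans hab) (s56gdg_i1 S A K₁ rK)) c.1 ∧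
      ∀ q : ↥S, (tl_locMor S (primeLocalToGlobal q.1) M).H1 x =
        (dm_Eloc S₀ hpS₀ M π₀ A e he hζ q.1).δ0 (tl_levelsLoc q.1) (hB₀ q.1)
          (s56gdg_tq S π₀ A K₁ rK hrK 𝔖 (ha.trans hab) q χ) := by
  obtain ⟨b, hab, χ, c, hcomp, hloc⟩ := s56gdg_exists_data 𝔖 (s56gdg_i1 S A K₁ rK) hF hR
    (s56gdg_Eg S hpS M π₀ A e he hζ K₁ rK hrK)
    (s56gdg_Eg_π_apply S hpS M π₀ A e he hζ K₁ rK hrK)
    (Aq := fun q : ↥S => tl_Act (Rep.res (primeLocalToGlobal q.1) M))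
    (fun q => s56gdg_El S hpS M π₀ A e he hζ K₁ rK hrK q.1)
    (fun q => s56gdg_El_π_apply S hpS M π₀ A e he hζ K₁ rK hrK q.1)
    (fun q => s56gdg_t S hpS M π₀ A e he hζ K₁ rK hrK q.1)
    (fun q => s56gdg_t_mB S hpS M π₀ A e he hζ K₁ rK hrK q.1)
    (fun q => dm_isSmooth_Tl S K₁.q (dm_ql_hπ₀ K₁) q.1 _ hF)
    (fun q y => s56gdg_V1 S π₀ A K₁ rK hrK q.1 _) x ha
  refine ⟨b, hab, χ, c, hcomp, fun q => ?_⟩
  have h := hloc q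
  beta_reduce at h
  rw [s56gdg_El_d0 S hpS S₀ hpS₀ M π₀ A e he hζ K₁ rK hrK q.1 _ (hB₀ q.1)] at h
  exact h

include hpS hF hR in
/-- **[X2], general form**: every compatible pair `(χ, c)` with `c` landing in `C°` at a higher
level gives a class of `H¹(G_S, M)` with localisations `δ⁰_q (lam ∘ pr_q ∘ χ_q)`. -/
theorem s56gdg_gen_X2 {b : du_Lev S} (hb : K₁ ≤ b)
    (χ : ↥(lvH0 (G := b.Γ) (LvHom (tl_Act (sl_Y (s56gdg_R1 S A K₁ rK) hb)) (sl_J 𝔖 b))))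
    (cC : ↥(lvH0 (G := b.Γ)
      (LvHom (tl_Act (sl_Y (s56gdg_F1 S A K₁ rK) hb)) (tl_Act (𝔖.dat b).C))))
    (hcomp : ∀ r, sl_sum 𝔖 b (χ.1 r) = cC.1 (s56gdg_iact hb (s56gdg_i1 S A K₁ rK) r))
    {b' : du_Lev S} (hbb' : b ≤ b') (hCo : ∀ f, sl_tCact 𝔖 hbb' (cC.1 f) ∈ sl_Co 𝔖 b') :
    ∃ x : lvH1 (tl_levelsS S) (tl_Act M),
      ∀ q : ↥S, (tl_locMor S (primeLocalToGlobal q.1) M).H1 x =
        (dm_Eloc S₀ hpS₀ M π₀ A e he hζ q.1).δ0 (tl_levelsLoc q.1) (hB₀ q.1)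
          (s56gdg_tq S π₀ A K₁ rK hrK 𝔖 hb q χ) := by
  obtain ⟨x, hloc⟩ := s56gdg_exists_class' 𝔖 (s56gdg_i1 S A K₁ rK) hF hR
    (s56gdg_Eg S hpS M π₀ A e he hζ K₁ rK hrK)
    (s56gdg_Eg_π_apply S hpS M π₀ A e he hζ K₁ rK hrK)
    (Aq := fun q : ↥S => tl_Act (Rep.res (primeLocalToGlobal q.1) M))
    (fun q => s56gdg_El S hpS M π₀ A e he hζ K₁ rK hrK q.1)
    (fun q => s56gdg_El_π_apply S hpS M π₀ A e he hζ K₁ rK hrK q.1)
    (fun q => s56gdg_t S hpS M π₀ A e he hζ K₁ rK hrK q.1)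
    (fun q => s56gdg_t_mB S hpS M π₀ A e he hζ K₁ rK hrK q.1)
    (fun q => dm_isSmooth_Tl S K₁.q (dm_ql_hπ₀ K₁) q.1 _ hF) hb χ cC hcomp hbb' hCo
  refine ⟨x, fun q => ?_⟩
  have h := hloc q
  beta_reduce at h
  rw [s56gdg_El_d0 S hpS S₀ hpS₀ M π₀ A e he hζ K₁ rK hrK q.1 _ (hB₀ q.1)] at h
  exact h

end Bridge

section Dict

variable {p : ℕ} {S : Finset Nat.Primes} (𝔖 : du_Seam p S)
  {Δ : Type} [Group Δ] (π₀ : GQ →* Δ) (A : Rep.{0} ℤ Δ)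
  (K₁ : du_Lev S) (rK : K₁.Γ →* Δ) (hrK : ∀ σ : GQ, rK (K₁.q σ) = π₀ σ)
  {b : du_Lev S} (hb : K₁ ≤ b) (rb : b.Γ →* Δ) (hrb : ∀ σ : GQ, rb (b.q σ) = π₀ σ)

include hrK hrb in
/-- the two restriction maps `Γ_b → Δ` coincide. -/
theorem s56gdg_rK_res (g : b.Γ) : rK (du_Lev.res hb g) = rb g := by
  obtain ⟨σ, rfl⟩ := b.q_surjective g
  rw [du_Lev.res_q, hrK, hrb]

/-- **from morphisms of representations to invariant homomorphisms**: the family `ψ`. -/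
def s56gdg_chiOf (ψ : ∀ q : ↥S, Rep.res rb (la_R A) ⟶ (𝔖.dat b).Jq q) :
    ↥(lvH0 (G := b.Γ) (LvHom (tl_Act (sl_Y (s56gdg_R1 S A K₁ rK) hb)) (sl_J 𝔖 b))) :=
  ⟨LvHom.of (AddMonoidHom.mk' (fun r q => tl_toAct _ ((ψ q).hom r)) (fun r r' => by
      funext q
      exact map_add (ψ q).hom r r')), by
    rw [LvHom.mem_lvH0_iff]
    intro g r
    funext q
    show (ψ q).hom ((la_R A).ρ (rK (du_Lev.res hb g)) r) = ((𝔖.dat b).Jq q).ρ g ((ψ q).hom r)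
    rw [s56gdg_rK_res π₀ K₁ rK hrK hb rb hrb]
    exact Rep.hom_comm_apply (ψ q) g r⟩

theorem s56gdg_chiOf_apply (ψ : ∀ q : ↥S, Rep.res rb (la_R A) ⟶ (𝔖.dat b).Jq q)
    (r : (la_R A).V) (q : ↥S) :
    (s56gdg_chiOf 𝔖 π₀ A K₁ rK hrK hb rb hrb ψ).1 r q = tl_toAct _ ((ψ q).hom r) := rfl

/-- **from morphisms of representations to invariant homomorphisms**: `φ_F`. -/
def s56gdg_cOf (φF : Rep.res rb (la_F A) ⟶ (𝔖.dat b).C) :
    ↥(lvH0 (G := b.Γ)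
      (LvHom (tl_Act (sl_Y (s56gdg_F1 S A K₁ rK) hb)) (tl_Act (𝔖.dat b).C))) :=
  ⟨LvHom.of (AddMonoidHom.mk' (fun f => tl_toAct _ (φF.hom f)) (fun f f' =>
      map_add φF.hom f f')), by
    rw [LvHom.mem_lvH0_iff]
    intro g f
    show φF.hom ((la_F A).ρ (rK (du_Lev.res hb g)) f) = ((𝔖.dat b).C).ρ g (φF.hom f)
    rw [s56gdg_rK_res π₀ K₁ rK hrK hb rb hrb]
    exact Rep.hom_comm_apply φF g f⟩

theorem s56gdg_cOf_apply (φF : Rep.res rb (la_F A) ⟶ (𝔖.dat b).C) (f : (la_F A).V) :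
    (s56gdg_cOf 𝔖 π₀ A K₁ rK hrK hb rb hrb φF).1 f = tl_toAct _ (φF.hom f) := rfl

/-- **from invariant homomorphisms to morphisms of representations**: the component `ψ_q`. -/
def s56gdg_psiOf
    (χ : ↥(lvH0 (G := b.Γ) (LvHom (tl_Act (sl_Y (s56gdg_R1 S A K₁ rK) hb)) (sl_J 𝔖 b))))
    (q : ↥S) : Rep.res rb (la_R A) ⟶ (𝔖.dat b).Jq q :=
  la_ofAddHom (A := Rep.res rb (la_R A)) (B := (𝔖.dat b).Jq q)
    (AddMonoidHom.mk' (fun r => tl_ofAct _ (χ.1 r q)) (fun r r' => by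
      have h : χ.1 (r + r') = χ.1 r + χ.1 r' := map_add χ.1 r r'
      rw [h]
      rfl))
    (fun g r => by
      have h := (LvHom.mem_lvH0_iff χ.1).1 χ.2 g r
      have h1 := congrFun h q
      show tl_ofAct _ (χ.1 ((la_R A).ρ (rb g) r) q) = _
      rw [← s56gdg_rK_res π₀ K₁ rK hrK hb rb hrb]
      exact h1)

theorem s56gdg_psiOf_hom
    (χ : ↥(lvH0 (G := b.Γ) (LvHom (tl_Act (sl_Y (s56gdg_R1 S A K₁ rK) hb)) (sl_J 𝔖 b))))
    (q : ↥S) (r : (la_R A).V) :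
    (s56gdg_psiOf 𝔖 π₀ A K₁ rK hrK hb rb hrb χ q).hom r = tl_ofAct _ (χ.1 r q) := rfl

/-- **from invariant homomorphisms to morphisms of representations**: `φ_F`. -/
def s56gdg_phiOf
    (c : ↥(lvH0 (G := b.Γ)
      (LvHom (tl_Act (sl_Y (s56gdg_F1 S A K₁ rK) hb)) ↥(sl_Co 𝔖 b)))) :
    Rep.res rb (la_F A) ⟶ (𝔖.dat b).C :=
  la_ofAddHom (A := Rep.res rb (la_F A)) (B := (𝔖.dat b).C)
    (AddMonoidHom.mk' (fun f => tl_ofAct _ ((c.1 f : ↥(sl_Co 𝔖 b)) : tl_Act (𝔖.dat b).C))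
      (fun f f' => by
        have h : c.1 (f + f') = c.1 f + c.1 f' := map_add c.1 f f'
        rw [h]
        rfl))
    (fun g f => by
      have h := (LvHom.mem_lvH0_iff c.1).1 c.2 g f
      have h1 := congrArg (fun x : ↥(sl_Co 𝔖 b) => (x : tl_Act (𝔖.dat b).C)) h
      show tl_ofAct _ ((c.1 ((la_F A).ρ (rb g) f) : ↥(sl_Co 𝔖 b)) : tl_Act (𝔖.dat b).C) = _
      rw [← s56gdg_rK_res π₀ K₁ rK hrK hb rb hrb]
      exact h1)

theorem s56gdg_phiOf_hom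
    (c : ↥(lvH0 (G := b.Γ)
      (LvHom (tl_Act (sl_Y (s56gdg_F1 S A K₁ rK) hb)) ↥(sl_Co 𝔖 b)))) (f : (la_F A).V) :
    (s56gdg_phiOf 𝔖 π₀ A K₁ rK hrK hb rb hrb c).hom f =
      tl_ofAct _ ((c.1 f : ↥(sl_Co 𝔖 b)) : tl_Act (𝔖.dat b).C) := rfl

end Dict

end

end Fermat.Agent.S56
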