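/-
S56 / [GW-DUAL], cell [D5] (helper9, prefix `s56gdg_`), file 6: THE TWO SEAMS OF THE X-SIDE,
`s56gdg_x1 : s56gd_X1_stmt` and `s56gdg_x2 : s56gd_X2_stmt` (Dual/Global.lean), verbatim.
-/
import Fermat.Agent.S56.GW.Dual.D5.Inst
import Fermat.Agent.S56.GW.Dual.Global

set_option autoImplicit false
set_option linter.unusedSectionVars false

open CategoryTheory groupCohomology ExtCitation

namespace Fermat.Agent.S56

open Fermat.Agent.S55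

local notation "Qbar" => AlgebraicClosure ℚ
local notation "GQ" => (AlgebraicClosure ℚ ≃ₐ[ℚ] AlgebraicClosure ℚ)

noncomputable section

/-- **SEAM [X2]**. -/
theorem s56gdg_x2 : s56gd_X2_stmt := by
  intro p _ hp2 M _ hsm S hpS _hur b hb ψ φF hcomp hCinf
  have : Nonempty ↥S := ⟨⟨pPrime p, hpS⟩⟩
  obtain ⟨b', hbb', hCo⟩ := hCinf
  have hrK : ∀ σ : GQ, s56gd_ra M hsm (s56gd_Fld.ofLev b) hb (b.q σ) = s56gd_pi0 M hsm σ :=
    fun σ => s56gd_ra_q M hsm (s56gd_Fld.ofLev b) hb σ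
  obtain ⟨x, hx⟩ := s56gdg_gen_X2 S hpS {pPrime p} (Finset.mem_singleton_self _) M
    (s56gd_pi0 M hsm) (s56gd_A M hsm) (s56gd_e M hsm) (s56gd_he M hsm) (s56gd_zeta_spec p)
    b (s56gd_ra M hsm (s56gd_Fld.ofLev b) hb) hrK (s56gd_seam hp2 S hpS)
    (s56gd_isLattice_Fb M hsm S b hb) (s56gd_isLattice_Rb M hsm S b hb)
    (fun q => s56gd_smooth_TFl M hsm q) (le_refl b)
    (s56gdg_chiOf (s56gd_seam hp2 S hpS) (s56gd_pi0 M hsm) (s56gd_A M hsm) b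
      (s56gd_ra M hsm (s56gd_Fld.ofLev b) hb) hrK (le_refl b)
      (s56gd_ra M hsm (s56gd_Fld.ofLev b) hb) hrK ψ)
    (s56gdg_cOf (s56gd_seam hp2 S hpS) (s56gd_pi0 M hsm) (s56gd_A M hsm) b
      (s56gd_ra M hsm (s56gd_Fld.ofLev b) hb) hrK (le_refl b)
      (s56gd_ra M hsm (s56gd_Fld.ofLev b) hb) hrK φF)
    (by
      intro r
      apply sl_ofAct_injective
      rw [sl_ofAct_sum]
      have h1 := congrArg (fun f : s56gd_Rb M hsm S b hb ⟶ ((s56gd_seam hp2 S hpS).dat b).C =>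
        f.hom r) hcomp
      beta_reduce at h1
      rw [xd_sum_hom] at h1
      exact h1)
    hbb' (fun f => hCo f)
  refine ⟨x, fun q => ?_⟩
  refine (hx q).trans ?_
  show (s56gd_Eloc M hsm q.1).δ0 (tl_levelsLoc q.1) (s56gd_smooth_TFl M hsm q.1) _ =
    (s56gd_Eloc M hsm q.1).δ0 (tl_levelsLoc q.1) (s56gd_smooth_TFl M hsm q.1) _
  congr 1

/-- **SEAM [X1]**. -/
theorem s56gdg_x1 : s56gd_X1_stmt := by
  intro p _ hp2 M _ hsm S hpS hur x a₀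
  have : Nonempty ↥S := ⟨⟨pPrime p, hpS⟩⟩
  obtain ⟨K₁, hK₁⟩ := du_Lev.exists_ge_field (S := S) (s56gd_K0 M hsm).L
    (s56gd_K0_unr M hsm S hpS hur)
  have hK : s56gd_K0 M hsm ≤ s56gd_Fld.ofLev K₁ := hK₁
  have hrK : ∀ σ : GQ, s56gd_ra M hsm (s56gd_Fld.ofLev K₁) hK (K₁.q σ) = s56gd_pi0 M hsm σ :=
    fun σ => s56gd_ra_q M hsm (s56gd_Fld.ofLev K₁) hK σ
  obtain ⟨b, hab, χ, c, hcomp, hloc⟩ := s56gdg_gen_X1 S hpS {pPrime p}
    (Finset.mem_singleton_self _) M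
    (s56gd_pi0 M hsm) (s56gd_A M hsm) (s56gd_e M hsm) (s56gd_he M hsm) (s56gd_zeta_spec p)
    K₁ (s56gd_ra M hsm (s56gd_Fld.ofLev K₁) hK) hrK (s56gd_seam hp2 S hpS)
    (s56gd_isLattice_Fb M hsm S K₁ hK) (s56gd_isLattice_Rb M hsm S K₁ hK)
    (fun q => s56gd_smooth_TFl M hsm q) x (a := du_Lev.sup K₁ a₀) (du_Lev.le_sup_left K₁ a₀)
  have hKb : K₁ ≤ b := (du_Lev.le_sup_left K₁ a₀).trans hab
  have hb : s56gd_K0 M hsm ≤ s56gd_Fld.ofLev b :=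
    le_trans (α := IntermediateField ℚ Qbar) hK hKb
  have hrb : ∀ σ : GQ, s56gd_ra M hsm (s56gd_Fld.ofLev b) hb (b.q σ) = s56gd_pi0 M hsm σ :=
    fun σ => s56gd_ra_q M hsm (s56gd_Fld.ofLev b) hb σ
  refine ⟨b, (du_Lev.le_sup_right K₁ a₀).trans hab, hb,
    fun q => s56gdg_psiOf (s56gd_seam hp2 S hpS) (s56gd_pi0 M hsm) (s56gd_A M hsm) K₁
      (s56gd_ra M hsm (s56gd_Fld.ofLev K₁) hK) hrK hKb
      (s56gd_ra M hsm (s56gd_Fld.ofLev b) hb) hrb χ q,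
    s56gdg_phiOf (s56gd_seam hp2 S hpS) (s56gd_pi0 M hsm) (s56gd_A M hsm) K₁
      (s56gd_ra M hsm (s56gd_Fld.ofLev K₁) hK) hrK hKb
      (s56gd_ra M hsm (s56gd_Fld.ofLev b) hb) hrb c, ?_, fun q => ?_⟩
  · apply ab_hom_ext
    intro r
    rw [xd_sum_hom]
    have h1 := congrArg (fun f : LvHom (tl_Act (sl_Y (s56gdg_R1 S (s56gd_A M hsm) K₁
        (s56gd_ra M hsm (s56gd_Fld.ofLev K₁) hK)) hKb)) ↥(sl_Co (s56gd_seam hp2 S hpS) b) =>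
      tl_ofAct _ ((f r : ↥(sl_Co (s56gd_seam hp2 S hpS) b)) :
        tl_Act ((s56gd_seam hp2 S hpS).dat b).C)) hcomp
    beta_reduce at h1
    have h2 : tl_ofAct _ (sl_sum (s56gd_seam hp2 S hpS) b (χ.1 r)) = _ := h1
    rw [sl_ofAct_sum] at h2
    exact h2
  · refine (hloc q).trans ?_
    show (s56gd_Eloc M hsm q.1).δ0 (tl_levelsLoc q.1) (s56gd_smooth_TFl M hsm q.1) _ =
      (s56gd_Eloc M hsm q.1).δ0 (tl_levelsLoc q.1) (s56gd_smooth_TFl M hsm q.1) _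
    congr 1

end

end Fermat.Agent.S56
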