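/-
S56 / [GW-DUAL]: THE SEAM `s56gw_Dual_stmt` IS CLOSED (helper9, prefix `s56gdg_`).

Assembly of helper6's `s56gd_final` (Dual/Final.lean: [D1] `s56gdi_main`, [D3] `s56gdl_main`,
[D4] `s56gdr_dual_of_cells`, [D6] `s56gdc_rec`, [D7] `s56gdm_main`) with [Y2] `s56gdy_main`
(helper19) and [X1], [X2] `s56gdg_x1`, `s56gdg_x2` (D5/Main.lean).
-/
import Fermat.Agent.S56.GW.Dual.Final
import Fermat.Agent.S56.GW.Dual.Y.Main
import Fermat.Agent.S56.GW.Dual.D5.Main

set_option autoImplicit false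

namespace Fermat.Agent.S56

/-- **[GW-DUAL]: the internal duality seam of [GW].** -/
theorem s56gdg_dual : s56gw_Dual_stmt :=
  s56gd_final s56gdy_main s56gdg_x1 s56gdg_x2

end Fermat.Agent.S56
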